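import Fermat.Agent.H90.FF.ApproxFinal

/-!
# P-FF, FF-G4c: `approxRoot : Fermat.Agent.H72.FF.ApproxRootStatement` (corrected statement)
-/

namespace Fermat.Agent.H90.FF

/-- **FF-G4c** in the (corrected) interface form. -/
theorem approxRoot : Fermat.Agent.H72.FF.ApproxRootStatement := approxRootFixed

end Fermat.Agent.H90.FF
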