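import Mathlib
import Fermat.Agent.H72.FF.Interfaces
import Fermat.Agent.H18.RedArch

/-!
# P-FF, FF-G4 (row 622): the class-`C` calculus inside the ring `A` (helper90)

`A` a valuation subring of `ℚ̄` over `ℓ`, `R = unrInt A`.  A function `f : S → A` is *approximable*
in the parameters `x : S → Fin n → A` if for every `M` there is a polynomial `G` over `R` with
`f s - G (x s) ∈ ℓ ^ M A` for all `s`.  This file works inside the ring `A` (ideals of `A`);
`Fermat.Agent.H90.FF.ApproxFinal` translates to the `ℚ̄`-valued interface `IsApprox`.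
-/

set_option autoImplicit false
set_option linter.unusedSectionVars false

noncomputable section

namespace Fermat.Agent.H90.FF

open Fermat.Agent.H72.FF MvPolynomial

variable (ℓ : ℕ) (A : ValuationSubring Qb)

/-- the inclusion `R = unrInt A → A` -/
def unrIncl : unrInt A →+* A where
  toFun c := ⟨(c : Qb), c.2.1⟩
  map_one' := rfl
  map_mul' _ _ := rfl
  map_zero' := rfl
  map_add' _ _ := rfl

lemma unrIncl_coe (c : unrInt A) : ((unrIncl A c : A) : Qb) = (c : Qb) := rfl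

/-- the ideal `ℓ ^ M A` -/
def lIdeal (M : ℕ) : Ideal A := Ideal.span {((ℓ : ℕ) : A) ^ M}

lemma mem_lIdeal {M : ℕ} {y : A} :
    y ∈ lIdeal ℓ A M ↔ ∃ a : A, y = ((ℓ : ℕ) : A) ^ M * a := by
  rw [lIdeal, Ideal.mem_span_singleton']
  constructor
  · rintro ⟨a, rfl⟩
    exact ⟨a, mul_comm _ _⟩
  · rintro ⟨a, rfl⟩
    exact ⟨a, mul_comm _ _⟩

lemma lIdeal_anti {M M' : ℕ} (h : M ≤ M') : lIdeal ℓ A M' ≤ lIdeal ℓ A M := by
  rw [lIdeal, Ideal.span_le, Set.singleton_subset_iff, SetLike.mem_coe, mem_lIdeal]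
  exact ⟨((ℓ : ℕ) : A) ^ (M' - M), by rw [← pow_add, Nat.add_sub_cancel' h]⟩

/-- approximability inside the ring `A` -/
def IsApproxA {S : Type} {n : ℕ} (x : S → Fin n → A) (f : S → A) : Prop :=
  ∀ M : ℕ, ∃ G : MvPolynomial (Fin n) (unrInt A),
    ∀ s, f s - eval₂ (unrIncl A) (x s) G ∈ lIdeal ℓ A M

variable {ℓ A}

section closure

variable {S : Type} {n : ℕ} {x : S → Fin n → A}

lemma IsApproxA.const (c : unrInt A) : IsApproxA ℓ A x (fun _ => unrIncl A c) :=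
  fun _ => ⟨C c, fun s => by simp⟩

lemma IsApproxA.zero : IsApproxA ℓ A x (fun _ => 0) :=
  fun _ => ⟨0, fun s => by simp⟩

lemma IsApproxA.one : IsApproxA ℓ A x (fun _ => 1) :=
  fun _ => ⟨1, fun s => by simp⟩

lemma IsApproxA.coord (i : Fin n) : IsApproxA ℓ A x (fun s => x s i) :=
  fun _ => ⟨X i, fun s => by simp⟩

lemma IsApproxA.add {f g : S → A} (hf : IsApproxA ℓ A x f) (hg : IsApproxA ℓ A x g) :
    IsApproxA ℓ A x (fun s => f s + g s) := by
  intro M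
  obtain ⟨G, hG⟩ := hf M
  obtain ⟨H, hH⟩ := hg M
  refine ⟨G + H, fun s => ?_⟩
  rw [eval₂_add]
  have := Ideal.add_mem _ (hG s) (hH s)
  convert this using 1
  ring

lemma IsApproxA.neg {f : S → A} (hf : IsApproxA ℓ A x f) :
    IsApproxA ℓ A x (fun s => -f s) := by
  intro M
  obtain ⟨G, hG⟩ := hf M
  refine ⟨-G, fun s => ?_⟩
  rw [eval₂_neg]
  have := Ideal.neg_mem_iff _ |>.mpr (hG s)
  convert this using 1
  ring

lemma IsApproxA.sub {f g : S → A} (hf : IsApproxA ℓ A x f) (hg : IsApproxA ℓ A x g) :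
    IsApproxA ℓ A x (fun s => f s - g s) := by
  have := hf.add hg.neg
  simpa [sub_eq_add_neg] using this

lemma IsApproxA.mul {f g : S → A} (hf : IsApproxA ℓ A x f) (hg : IsApproxA ℓ A x g) :
    IsApproxA ℓ A x (fun s => f s * g s) := by
  intro M
  obtain ⟨G, hG⟩ := hf M
  obtain ⟨H, hH⟩ := hg M
  refine ⟨G * H, fun s => ?_⟩
  rw [eval₂_mul]
  have h1 := Ideal.mul_mem_left _ (f s) (hH s)
  have h2 := Ideal.mul_mem_left _ (eval₂ (unrIncl A) (x s) H) (hG s)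
  have := Ideal.add_mem _ h1 h2
  convert this using 1
  ring

lemma IsApproxA.pow {f : S → A} (hf : IsApproxA ℓ A x f) (k : ℕ) :
    IsApproxA ℓ A x (fun s => f s ^ k) := by
  induction k with
  | zero => simpa using (IsApproxA.one : IsApproxA ℓ A x _)
  | succ k ih =>
    have := ih.mul hf
    simpa [pow_succ] using this

lemma IsApproxA.sum {ι : Type*} (t : Finset ι) (f : ι → S → A)
    (h : ∀ i ∈ t, IsApproxA ℓ A x (f i)) :
    IsApproxA ℓ A x (fun s => ∑ i ∈ t, f i s) := by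
  classical
  induction t using Finset.induction_on with
  | empty => simpa using (IsApproxA.zero : IsApproxA ℓ A x _)
  | insert a t ha ih =>
    have h1 := h a (Finset.mem_insert_self a t)
    have h2 := ih fun i hi => h i (Finset.mem_insert_of_mem hi)
    have := h1.add h2
    simpa [Finset.sum_insert ha] using this

/-- a function which is `ℓ^M`-close to an approximable function, for every `M`, is
approximable -/
lemma IsApproxA.of_close {f : S → A}
    (h : ∀ M : ℕ, ∃ g : S → A, IsApproxA ℓ A x g ∧ ∀ s, f s - g s ∈ lIdeal ℓ A M) :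
    IsApproxA ℓ A x f := by
  intro M
  obtain ⟨g, hg, hfg⟩ := h M
  obtain ⟨G, hG⟩ := hg M
  refine ⟨G, fun s => ?_⟩
  have := Ideal.add_mem _ (hfg s) (hG s)
  convert this using 1
  ring

end closure

/-- polynomials are "Lipschitz": congruent arguments give congruent values -/
lemma eval₂_sub_mem {σ : Type*} (I : Ideal A) (G : MvPolynomial σ (unrInt A)) (u u' : σ → A)
    (h : ∀ i, u i - u' i ∈ I) :
    eval₂ (unrIncl A) u G - eval₂ (unrIncl A) u' G ∈ I := by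
  rw [← Ideal.Quotient.eq, eval₂_comp_left (Ideal.Quotient.mk I),
    eval₂_comp_left (Ideal.Quotient.mk I)]
  congr 1
  funext i
  exact Ideal.Quotient.eq.mpr (h i)

/-- the value of a polynomial at a point of the maximal ideal is congruent to its constant
coefficient -/
lemma eval₂_sub_constantCoeff_mem {σ : Type*} (I : Ideal A) (G : MvPolynomial σ (unrInt A))
    (u : σ → A) (h : ∀ i, u i ∈ I) :
    eval₂ (unrIncl A) u G - unrIncl A (constantCoeff G) ∈ I := by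
  have h1 := eval₂_sub_mem I G u (fun _ => 0) (fun i => by simpa using h i)
  have h2 : eval₂ (unrIncl A) (fun _ => (0 : A)) G = unrIncl A (constantCoeff G) := by
    have := eval₂_comp_left (unrIncl A) (RingHom.id (unrInt A)) (fun _ => (0 : unrInt A)) G
    rw [eval₂_id] at this
    have h0 : eval (fun _ : σ => (0 : unrInt A)) G = constantCoeff G := by
      have := MvPolynomial.eval_zero (R := unrInt A) (σ := σ)
      exact congrArg (fun φ => φ G) this
    rw [h0] at this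
    rw [this]
    congr 1
  rwa [h2] at h1

/-- substitution -/
theorem IsApproxA.comp {S : Type} {n m : ℕ} {x : S → Fin n → A} {ψ : S → Fin m → A}
    (hψ : ∀ j, IsApproxA ℓ A x (fun s => ψ s j)) {f : S → A} (hf : IsApproxA ℓ A ψ f) :
    IsApproxA ℓ A x f := by
  intro M
  obtain ⟨G, hG⟩ := hf M
  choose H hH using fun j => hψ j M
  refine ⟨bind₁ H G, fun s => ?_⟩
  have h1 : eval₂ (unrIncl A) (x s) (bind₁ H G) =
      eval₂ (unrIncl A) (fun j => eval₂ (unrIncl A) (x s) (H j)) G := by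
    have := eval₂Hom_bind₁ (unrIncl A) (x s) H G
    simpa [coe_eval₂Hom] using this
  rw [h1]
  have h2 := eval₂_sub_mem (lIdeal ℓ A M) G (ψ s)
    (fun j => eval₂ (unrIncl A) (x s) (H j)) (fun j => hH j s)
  have := Ideal.add_mem _ (hG s) h2
  convert this using 1
  ring

end Fermat.Agent.H90.FF

namespace Fermat.Agent.H90.FF

open Fermat.Agent.H72.FF MvPolynomial

variable {ℓ : ℕ} {A : ValuationSubring Qb}

/-! ### rank one -/

lemma natCast_ne_zero_of_prime (hℓ : ℓ.Prime) : ((ℓ : ℕ) : A) ≠ 0 := by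
  intro h
  have h1 : (((ℓ : ℕ) : A) : Qb) = 0 := by rw [h]; rfl
  have h2 : (((ℓ : ℕ) : A) : Qb) = (ℓ : Qb) := by simp
  rw [h2] at h1
  exact hℓ.ne_zero (by exact_mod_cast h1)

lemma natCast_mem_maximalIdeal (hA : A.LiesOverPrime ℓ) :
    ((ℓ : ℕ) : A) ∈ IsLocalRing.maximalIdeal A :=
  Fermat.Agent.H18.rv_natCast_mem_maximalIdeal A hA

lemma lIdeal_succ_le_maximalIdeal (hA : A.LiesOverPrime ℓ) (M : ℕ) :
    lIdeal ℓ A (M + 1) ≤ IsLocalRing.maximalIdeal A := by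
  rw [lIdeal, Ideal.span_le, Set.singleton_subset_iff, SetLike.mem_coe, pow_succ]
  exact Ideal.mul_mem_left _ _ (natCast_mem_maximalIdeal hA)

/-- **rank one**: the maximal ideal is contained in the radical of `ℓ ^ M A`. -/
lemma maximalIdeal_le_radical (hℓ : ℓ.Prime) (hA : A.LiesOverPrime ℓ) (M : ℕ) :
    IsLocalRing.maximalIdeal A ≤ (lIdeal ℓ A M).radical := by
  intro a ha
  have harch := Fermat.Agent.H18.rvArch_algebraicClosure A hℓ hA
  obtain ⟨k, hk⟩ := harch a (((ℓ : ℕ) : A) ^ M) (pow_ne_zero _ (natCast_ne_zero_of_prime hℓ))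
    ((IsLocalRing.mem_maximalIdeal _).mp ha)
  refine ⟨k, ?_⟩
  rw [lIdeal, Ideal.mem_span_singleton]
  exact hk

/-- a finitely generated ideal inside the maximal ideal has a power inside `ℓ ^ M A` -/
lemma exists_pow_le_lIdeal (hℓ : ℓ.Prime) (hA : A.LiesOverPrime ℓ) (𝔞 : Ideal A)
    (hfg : 𝔞.FG) (hle : 𝔞 ≤ IsLocalRing.maximalIdeal A) (M : ℕ) :
    ∃ J : ℕ, 𝔞 ^ J ≤ lIdeal ℓ A M :=
  Ideal.exists_pow_le_of_le_radical_of_fg (hle.trans (maximalIdeal_le_radical hℓ hA M)) hfg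

/-- uniform version for finitely many elements of the maximal ideal -/
lemma exists_pow_mem_lIdeal (hℓ : ℓ.Prime) (hA : A.LiesOverPrime ℓ) {S : Type} [Finite S]
    (t : S → A) (ht : ∀ s, t s ∈ IsLocalRing.maximalIdeal A) (M : ℕ) :
    ∃ J : ℕ, ∀ s, t s ^ J ∈ lIdeal ℓ A M := by
  obtain ⟨J, hJ⟩ := exists_pow_le_lIdeal hℓ hA (Ideal.span (Set.range t))
    (Submodule.fg_span (Set.finite_range t))
    (by rw [Ideal.span_le]; rintro _ ⟨s, rfl⟩; exact ht s) M
  exact ⟨J, fun s => hJ (Ideal.pow_mem_pow (Ideal.subset_span (Set.mem_range_self s)) J)⟩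

/-! ### inverses -/

/-- the inverse of a unit of `A` lying in `R` lies in `R` -/
lemma exists_unrInt_inv (c : unrInt A) (hc : IsUnit (unrIncl A c)) :
    ∃ d : unrInt A, c * d = 1 := by
  obtain ⟨u, hu⟩ := hc
  have h1 : (c : Qb) * ((↑u⁻¹ : A) : Qb) = 1 := by
    have : unrIncl A c * (↑u⁻¹ : A) = 1 := by rw [← hu]; exact u.mul_inv
    have := congrArg (fun z : A => (z : Qb)) this
    simpa [unrIncl_coe] using this
  have hfix : ∀ σ ∈ A.inertiaSubgroupIn ℚ, σ ((↑u⁻¹ : A) : Qb) = ((↑u⁻¹ : A) : Qb) := by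
    intro σ hσ
    have h2 : σ (c : Qb) * σ ((↑u⁻¹ : A) : Qb) = 1 := by rw [← map_mul, h1, map_one]
    rw [c.2.2 σ hσ] at h2
    have hc0 : (c : Qb) ≠ 0 := left_ne_zero_of_mul_eq_one h1
    exact mul_left_cancel₀ hc0 (h2.trans h1.symm)
  refine ⟨⟨((↑u⁻¹ : A) : Qb), (↑u⁻¹ : A).2, hfix⟩, ?_⟩
  exact Subtype.ext h1

/-- **FF-G4a inside `A`**: inverses of approximable unit-valued functions are approximable. -/
theorem IsApproxA.inv (hℓ : ℓ.Prime) (hA : A.LiesOverPrime ℓ) {S : Type} [Finite S] {n : ℕ}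
    {x : S → Fin n → A} (hx : ∀ s i, x s i ∈ IsLocalRing.maximalIdeal A) {f g : S → A}
    (hf : IsApproxA ℓ A x f) (hfg : ∀ s, f s * g s = 1) : IsApproxA ℓ A x g := by
  intro M
  rcases isEmpty_or_nonempty S with hS | ⟨⟨s₀⟩⟩
  · exact ⟨0, fun s => isEmptyElim s⟩
  obtain ⟨G, hG⟩ := hf (M + 1)
  have hGM : ∀ s, f s - eval₂ (unrIncl A) (x s) G ∈ lIdeal ℓ A M :=
    fun s => lIdeal_anti ℓ A (Nat.le_succ M) (hG s)
  have hGm : ∀ s, f s - eval₂ (unrIncl A) (x s) G ∈ IsLocalRing.maximalIdeal A :=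
    fun s => lIdeal_succ_le_maximalIdeal hA M (hG s)
  -- the constant coefficient is a unit
  have hc : IsUnit (unrIncl A (constantCoeff G)) := by
    have h1 := eval₂_sub_constantCoeff_mem (IsLocalRing.maximalIdeal A) G (x s₀) (hx s₀)
    have h2 : f s₀ - unrIncl A (constantCoeff G) ∈ IsLocalRing.maximalIdeal A := by
      have := Ideal.add_mem _ (hGm s₀) h1
      convert this using 1
      ring
    by_contra hnu
    have h3 : unrIncl A (constantCoeff G) ∈ IsLocalRing.maximalIdeal A :=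
      (IsLocalRing.mem_maximalIdeal _).mpr hnu
    have h4 : f s₀ ∈ IsLocalRing.maximalIdeal A := by
      have := Ideal.add_mem _ h2 h3
      simpa using this
    exact (IsLocalRing.mem_maximalIdeal _).mp h4 (IsUnit.of_mul_eq_one _ (hfg s₀))
  obtain ⟨d, hd⟩ := exists_unrInt_inv (constantCoeff G) hc
  -- `h = 1 - d G` has zero constant coefficient
  set h : MvPolynomial (Fin n) (unrInt A) := 1 - C d * G with hh
  have hh0 : constantCoeff h = 0 := by
    rw [hh, map_sub, map_one, map_mul, constantCoeff_C, mul_comm, hd, sub_self]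
  have ht : ∀ s, eval₂ (unrIncl A) (x s) h ∈ IsLocalRing.maximalIdeal A := by
    intro s
    have := eval₂_sub_constantCoeff_mem (IsLocalRing.maximalIdeal A) h (x s) (hx s)
    rwa [hh0, map_zero, sub_zero] at this
  obtain ⟨J, hJ⟩ := exists_pow_mem_lIdeal hℓ hA (fun s => eval₂ (unrIncl A) (x s) h) ht M
  refine ⟨C d * ∑ i ∈ Finset.range J, h ^ i, fun s => ?_⟩
  set t : A := eval₂ (unrIncl A) (x s) h with htdef
  set Gs : A := eval₂ (unrIncl A) (x s) G with hGs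
  set dA : A := unrIncl A d with hdA
  have ht1 : t = 1 - dA * Gs := by
    rw [htdef, hh, eval₂_sub, eval₂_one, eval₂_mul, eval₂_C]
  have hev : eval₂ (unrIncl A) (x s) (C d * ∑ i ∈ Finset.range J, h ^ i) =
      dA * ∑ i ∈ Finset.range J, t ^ i := by
    rw [eval₂_mul, eval₂_C, eval₂_sum]
    simp only [eval₂_pow]
    rfl
  rw [hev]
  have hgeom : (1 - t) * ∑ i ∈ Finset.range J, t ^ i = 1 - t ^ J := by
    have := mul_neg_geom_sum t J
    exact this
  -- `g - d Σ = g (t^J - (f - Gs) d Σ)`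
  have key : g s - dA * ∑ i ∈ Finset.range J, t ^ i =
      g s * t ^ J - (g s * dA * ∑ i ∈ Finset.range J, t ^ i) * (f s - Gs) := by
    have e1 : dA * Gs = 1 - t := by rw [ht1]; ring
    have e2 : dA * Gs * ∑ i ∈ Finset.range J, t ^ i = 1 - t ^ J := by rw [e1, hgeom]
    have e3 := hfg s
    linear_combination (-(g s)) * e2 + (dA * ∑ i ∈ Finset.range J, t ^ i) * e3
  rw [key]
  exact Ideal.sub_mem _ (Ideal.mul_mem_left _ _ (hJ s)) (Ideal.mul_mem_left _ _ (hGM s))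

end Fermat.Agent.H90.FF

namespace Fermat.Agent.H90.FF

open Fermat.Agent.H72.FF MvPolynomial

/-! ### simple roots -/

section rootstep

variable {B : Type*} [CommRing B]

/-- `ρ^j - T^j ∈ (ρ - T) 𝔞` for `j ≥ 2` and `ρ, T ∈ 𝔞` -/
lemma pow_sub_pow_mem (𝔞 : Ideal B) {ρ T : B} (hρ : ρ ∈ 𝔞) (hT : T ∈ 𝔞) (j : ℕ) :
    ρ ^ (j + 2) - T ^ (j + 2) ∈ Ideal.span {ρ - T} * 𝔞 := by
  have h : ρ ^ (j + 2) - T ^ (j + 2) =
      (ρ - T) * ∑ i ∈ Finset.range (j + 2), ρ ^ i * T ^ (j + 2 - 1 - i) := by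
    rw [mul_comm]
    exact (geom_sum₂_mul ρ T (j + 2)).symm
  rw [h]
  apply Ideal.mul_mem_mul (Ideal.subset_span (Set.mem_singleton _))
  apply Ideal.sum_mem
  intro i hi
  rcases Nat.eq_zero_or_pos i with rfl | hpos
  · simp only [pow_zero, one_mul]
    have : j + 2 - 1 - 0 = j + 1 := by omega
    rw [this, pow_succ]
    exact Ideal.mul_mem_left _ _ hT
  · obtain ⟨i', rfl⟩ : ∃ i', i = i' + 1 := ⟨i - 1, by omega⟩
    rw [pow_succ]
    exact Ideal.mul_mem_right _ _ (Ideal.mul_mem_left _ _ hρ)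

/-- one step of the simplified Newton iteration `T ↦ T - u P(T)`, `u = 1 / P'(0)` -/
lemma root_step (𝔞 I : Ideal B) {d : ℕ} (φ : Fin (d + 2) → B) (u ρ T : B)
    (hu : u * φ 1 = 1) (hφ0 : φ 0 ∈ 𝔞) (hρ : ρ ∈ 𝔞) (hT : T ∈ 𝔞)
    (hroot : ∑ j, φ j * ρ ^ (j : ℕ) ∈ I) (k : ℕ) (hk : ρ - T ∈ 𝔞 ^ k ⊔ I) :
    (T - u * ∑ j, φ j * T ^ (j : ℕ)) ∈ 𝔞 ∧
      ρ - (T - u * ∑ j, φ j * T ^ (j : ℕ)) ∈ 𝔞 ^ (k + 1) ⊔ I := by
  constructor
  · refine Ideal.sub_mem _ hT (Ideal.mul_mem_left _ _ ?_)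
    rw [Fin.sum_univ_succ]
    refine Ideal.add_mem _ ?_ (Ideal.sum_mem _ fun j _ => ?_)
    · simpa using hφ0
    · rw [Fin.val_succ, pow_succ]
      exact Ideal.mul_mem_left _ _ (Ideal.mul_mem_left _ _ hT)
  · set E : B := ∑ j : Fin d, φ j.succ.succ * (ρ ^ ((j : ℕ) + 2) - T ^ ((j : ℕ) + 2)) with hE
    have hsplit : ∀ X : B, ∑ j, φ j * X ^ (j : ℕ) =
        φ 0 + φ 1 * X + ∑ j : Fin d, φ j.succ.succ * X ^ ((j : ℕ) + 2) := by
      intro X
      rw [Fin.sum_univ_succ, Fin.sum_univ_succ]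
      simp only [Fin.val_zero, pow_zero, mul_one, Fin.val_succ, Fin.succ_zero_eq_one,
        Fin.val_one, pow_one]
      ring
    have hEeq : E = (∑ j, φ j * ρ ^ (j : ℕ)) - (∑ j, φ j * T ^ (j : ℕ)) - φ 1 * (ρ - T) := by
      rw [hsplit ρ, hsplit T, hE]
      simp only [mul_sub, Finset.sum_sub_distrib]
      ring
    have hEmem : E ∈ 𝔞 ^ (k + 1) ⊔ I := by
      have hle : Ideal.span {ρ - T} * 𝔞 ≤ 𝔞 ^ (k + 1) ⊔ I := by
        calc Ideal.span {ρ - T} * 𝔞 ≤ (𝔞 ^ k ⊔ I) * 𝔞 :=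
              Ideal.mul_mono_left ((Ideal.span_singleton_le_iff_mem _).mpr hk)
          _ = 𝔞 ^ k * 𝔞 ⊔ I * 𝔞 := Ideal.sup_mul _ _ _
          _ ≤ 𝔞 ^ (k + 1) ⊔ I := sup_le_sup (by rw [pow_succ]) Ideal.mul_le_left
      rw [hE]
      exact Ideal.sum_mem _ fun j _ =>
        Ideal.mul_mem_left _ _ (hle (pow_sub_pow_mem 𝔞 hρ hT j))
    have hid : ρ - (T - u * ∑ j, φ j * T ^ (j : ℕ)) =
        u * (∑ j, φ j * ρ ^ (j : ℕ)) - u * E := by
      rw [hEeq]
      linear_combination (-(ρ - T)) * hu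
    rw [hid]
    exact Ideal.sub_mem _ (Ideal.mul_mem_left _ _ (Ideal.mem_sup_right hroot))
      (Ideal.mul_mem_left _ _ hEmem)

end rootstep

variable {ℓ : ℕ} {A : ValuationSubring Qb}

/-- **FF-G4c inside `A`** (simple Hensel roots). -/
theorem IsApproxA.root (hℓ : ℓ.Prime) (hA : A.LiesOverPrime ℓ) {S : Type} [Finite S] {n : ℕ}
    {x : S → Fin n → A} (hx : ∀ s i, x s i ∈ IsLocalRing.maximalIdeal A)
    (ρ : S → A) (hρ : ∀ s, ρ s ∈ IsLocalRing.maximalIdeal A)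
    (h : ∀ M : ℕ, ∃ (d : ℕ) (φ : Fin (d + 2) → S → A),
      (∀ j, IsApproxA ℓ A x (φ j)) ∧ (∀ s, φ 0 s ∈ IsLocalRing.maximalIdeal A) ∧
      (∀ s, IsUnit (φ 1 s)) ∧ ∀ s, ∑ j, φ j s * ρ s ^ (j : ℕ) ∈ lIdeal ℓ A M) :
    IsApproxA ℓ A x ρ := by
  apply IsApproxA.of_close
  intro M
  obtain ⟨d, φ, hφ, hφ0, hφ1, hroot⟩ := h M
  choose u hu using fun s => (hφ1 s).exists_left_inv
  have huA : IsApproxA ℓ A x u :=
    IsApproxA.inv hℓ hA hx (hφ 1) (fun s => by rw [mul_comm]; exact hu s)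
  -- the iteration
  let T : ℕ → S → A := fun k =>
    Nat.rec (fun _ => 0) (fun _ Tk s => Tk s - u s * ∑ j, φ j s * Tk s ^ (j : ℕ)) k
  have hT0 : T 0 = fun _ => 0 := rfl
  have hTs : ∀ k, T (k + 1) = fun s => T k s - u s * ∑ j, φ j s * T k s ^ (j : ℕ) :=
    fun k => rfl
  have hTA : ∀ k, IsApproxA ℓ A x (T k) := by
    intro k
    induction k with
    | zero => rw [hT0]; exact IsApproxA.zero
    | succ k ih =>
      rw [hTs]
      exact ih.sub (huA.mul (IsApproxA.sum _ _ fun j _ => (hφ j).mul (ih.pow _)))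
  set 𝔞 : Ideal A := Ideal.span (Set.range ρ ∪ Set.range (φ 0)) with h𝔞
  have h𝔞fg : 𝔞.FG := Submodule.fg_span ((Set.finite_range ρ).union (Set.finite_range (φ 0)))
  have h𝔞le : 𝔞 ≤ IsLocalRing.maximalIdeal A := by
    rw [h𝔞, Ideal.span_le]
    rintro _ (⟨s, rfl⟩ | ⟨s, rfl⟩)
    · exact hρ s
    · exact hφ0 s
  have hρ𝔞 : ∀ s, ρ s ∈ 𝔞 := fun s => Ideal.subset_span (Or.inl ⟨s, rfl⟩)
  have hφ𝔞 : ∀ s, φ 0 s ∈ 𝔞 := fun s => Ideal.subset_span (Or.inr ⟨s, rfl⟩)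
  have hinv : ∀ k s, T k s ∈ 𝔞 ∧ ρ s - T k s ∈ 𝔞 ^ k ⊔ lIdeal ℓ A M := by
    intro k
    induction k with
    | zero =>
      intro s
      rw [hT0]
      refine ⟨Ideal.zero_mem _, ?_⟩
      rw [pow_zero, Ideal.one_eq_top, top_sup_eq]
      exact Submodule.mem_top
    | succ k ih =>
      intro s
      rw [hTs]
      exact root_step 𝔞 _ (fun j => φ j s) (u s) (ρ s) (T k s) (hu s) (hφ𝔞 s) (hρ𝔞 s)
        (ih s).1 (hroot s) k (ih s).2
  obtain ⟨K, hK⟩ := exists_pow_le_lIdeal hℓ hA 𝔞 h𝔞fg h𝔞le M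
  exact ⟨T K, hTA K, fun s => (sup_le hK le_rfl) (hinv K s).2⟩

end Fermat.Agent.H90.FF
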