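import Mathlib
import Fermat.Agent.H72.FF.GeoBlocks
import Fermat.Agent.H90.FF.ApproxCore

/-!
# P-FF, FF-G4 (row 622): the class-`C` calculus, interface form (helper90)

* `approxInv : ApproxInvStatement` (as stated in `Fermat.Agent.H72.FF.GeoBlocks`);
* `approxComp : ApproxCompStatement` (as stated);
* `ApproxRootStatementFixed` and `approxRootFixed`: the statement `ApproxRootStatement` of
  `GeoBlocks` is FALSE as stated (its hypothesis `(φ 1 s)⁻¹ ∈ A` is satisfied by `φ 1 s = 0`,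
  so `φ = 0` makes every `ρ` a "root"); the fixed statement adds `φ 1 s ≠ 0`.
-/

set_option autoImplicit false
set_option linter.unusedSectionVars false

noncomputable section

namespace Fermat.Agent.H90.FF

open Fermat.Agent.H72.FF MvPolynomial

variable {ℓ : ℕ} {A : ValuationSubring Qb}

lemma subtype_comp_unrIncl : (A.subtype).comp (unrIncl A) = (unrInt A).subtype := rfl

/-- evaluation in `ℚ̄` of a polynomial over `R` at a point of `A` -/
lemma eval_map_coe {σ : Type*} (G : MvPolynomial σ (unrInt A)) (u : σ → A) :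
    eval (fun i => ((u i : A) : Qb)) (map (unrInt A).subtype G) =
      ((eval₂ (unrIncl A) u G : A) : Qb) := by
  rw [eval_map]
  have := eval₂_comp_left (A.subtype) (unrIncl A) u G
  rw [subtype_comp_unrIncl] at this
  exact this.symm

/-- a polynomial over `ℚ̄` with coefficients in `R` comes from a polynomial over `R` -/
lemma exists_map_eq {σ : Type*} (G : MvPolynomial σ Qb) (hG : ∀ m, G.coeff m ∈ unrInt A) :
    ∃ G₀ : MvPolynomial σ (unrInt A), map (unrInt A).subtype G₀ = G := by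
  have : G ∈ Set.range (map (unrInt A).subtype : MvPolynomial σ (unrInt A) → _) := by
    rw [mem_range_map_iff_coeffs_subset]
    intro c hc
    rw [Finset.mem_coe, mem_coeffs_iff] at hc
    obtain ⟨m, -, rfl⟩ := hc
    exact ⟨⟨_, hG m⟩, rfl⟩
  exact this

lemma natCast_pow_coe (M : ℕ) : (((((ℓ : ℕ) : A) ^ M : A)) : Qb) = (ℓ : Qb) ^ M := by
  simp

/-- **the bridge** between the interface notion and the notion inside `A` -/
lemma isApprox_iff {S : Type} {n : ℕ} (x : S → Fin n → A) (f : S → A) :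
    IsApprox ℓ A (fun s i => ((x s i : A) : Qb)) (fun s => ((f s : A) : Qb)) ↔
      IsApproxA ℓ A x f := by
  constructor
  · intro h M
    obtain ⟨G, hG, hs⟩ := h M
    obtain ⟨G₀, rfl⟩ := exists_map_eq G hG
    refine ⟨G₀, fun s => ?_⟩
    obtain ⟨a, ha, hsa⟩ := hs s
    rw [mem_lIdeal]
    refine ⟨⟨a, ha⟩, Subtype.ext ?_⟩
    rw [eval_map_coe] at hsa
    push_cast
    rw [← hsa]
  · intro h M
    obtain ⟨G₀, hG₀⟩ := h M
    refine ⟨map (unrInt A).subtype G₀, fun m => ?_, fun s => ?_⟩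
    · rw [coeff_map]
      exact (G₀.coeff m).2
    · obtain ⟨a, ha⟩ := (mem_lIdeal ℓ A).mp (hG₀ s)
      refine ⟨(a : Qb), a.2, ?_⟩
      rw [eval_map_coe]
      have := congrArg (fun z : A => (z : Qb)) ha
      simpa using this

/-- approximable functions of integral parameters are integral -/
lemma isApprox_mem {S : Type} {n : ℕ} {x : S → Fin n → Qb} (hx : ∀ s i, x s i ∈ A)
    {φ : S → Qb} (hφ : IsApprox ℓ A x φ) (s : S) : φ s ∈ A := by
  obtain ⟨G, hG, hs⟩ := hφ 0
  obtain ⟨G₀, rfl⟩ := exists_map_eq G hG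
  obtain ⟨a, ha, hsa⟩ := hs s
  have h1 := eval_map_coe G₀ (fun i => (⟨x s i, hx s i⟩ : A))
  have h2 : φ s = a + ((eval₂ (unrIncl A) (fun i => (⟨x s i, hx s i⟩ : A)) G₀ : A) : Qb) := by
    rw [← h1]
    rw [pow_zero, one_mul] at hsa
    rw [← hsa]
    ring
  rw [h2]
  exact A.add_mem _ _ ha (SetLike.coe_mem _)

lemma mem_maximalIdeal_of_nonunits {a : Qb} (ha : a ∈ A.nonunits) :
    (⟨a, A.nonunits_subset ha⟩ : A) ∈ IsLocalRing.maximalIdeal A := by
  obtain ⟨h, hm⟩ := ValuationSubring.mem_nonunits_iff_exists_mem_maximalIdeal.mp ha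
  exact hm

/-- **FF-G4b** (substitution), as stated in the interface. -/
theorem approxComp : ApproxCompStatement := by
  intro ℓ A hℓ hA S _ n m x ψ hx hψA hψ φ hφ
  have hxA : ∀ s i, x s i ∈ A := fun s i => A.nonunits_subset (hx s i)
  have hφA : ∀ s, φ s ∈ A := isApprox_mem hψA hφ
  let x' : S → Fin n → A := fun s i => ⟨x s i, hxA s i⟩
  let ψ' : S → Fin m → A := fun s j => ⟨ψ s j, hψA s j⟩
  let f : S → A := fun s => ⟨φ s, hφA s⟩
  have h1 : ∀ j, IsApproxA ℓ A x' (fun s => ψ' s j) := fun j =>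
    (isApprox_iff x' (fun s => ψ' s j)).mp (hψ j)
  have h2 : IsApproxA ℓ A ψ' f := (isApprox_iff ψ' f).mp hφ
  exact (isApprox_iff x' f).mpr (IsApproxA.comp h1 h2)

/-- **FF-G4a** (inverses), as stated in the interface. -/
theorem approxInv : ApproxInvStatement := by
  intro ℓ A hℓ hA S _ n x hx φ hφ hφA
  have hxA : ∀ s i, x s i ∈ A := fun s i => A.nonunits_subset (hx s i)
  let x' : S → Fin n → A := fun s i => ⟨x s i, hxA s i⟩
  have hx' : ∀ s i, x' s i ∈ IsLocalRing.maximalIdeal A := fun s i =>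
    mem_maximalIdeal_of_nonunits (hx s i)
  let f : S → A := fun s => ⟨φ s, (hφA s).1⟩
  let g : S → A := fun s => ⟨(φ s)⁻¹, (hφA s).2⟩
  have hf : IsApproxA ℓ A x' f := (isApprox_iff x' f).mp hφ
  by_cases h0 : ∃ s₁, φ s₁ = 0
  · -- degenerate case: then `φ = 0`
    obtain ⟨s₁, hs₁⟩ := h0
    have hall : ∀ s, φ s = 0 := by
      intro s
      by_contra hne
      -- `f s` is a unit
      have hu : IsUnit (f s) := by
        refine IsUnit.of_mul_eq_one (g s) (Subtype.ext ?_)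
        change φ s * (φ s)⁻¹ = 1
        exact mul_inv_cancel₀ hne
      -- but `f s ≡ f s₁ = 0` modulo the maximal ideal
      obtain ⟨G, hG⟩ := hf 1
      have hm : ∀ s', f s' - unrIncl A (constantCoeff G) ∈ IsLocalRing.maximalIdeal A := by
        intro s'
        have h1 := lIdeal_succ_le_maximalIdeal hA 0 (hG s')
        have h2 := eval₂_sub_constantCoeff_mem (IsLocalRing.maximalIdeal A) G (x' s') (hx' s')
        have := Ideal.add_mem _ h1 h2
        convert this using 1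
        ring
      have hf1 : f s₁ = 0 := Subtype.ext hs₁
      have hc : unrIncl A (constantCoeff G) ∈ IsLocalRing.maximalIdeal A := by
        have := hm s₁
        rw [hf1, zero_sub] at this
        exact (Ideal.neg_mem_iff _).mp this
      have hfs : f s ∈ IsLocalRing.maximalIdeal A := by
        have := Ideal.add_mem _ (hm s) hc
        simpa using this
      exact (IsLocalRing.mem_maximalIdeal _).mp hfs hu
    intro M
    refine ⟨0, fun m => by simp, fun s => ⟨0, A.zero_mem, ?_⟩⟩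
    simp [hall s]
  · -- the main case
    have hne : ∀ s, φ s ≠ 0 := fun s hs => h0 ⟨s, hs⟩
    have hfg : ∀ s, f s * g s = 1 := fun s => Subtype.ext (by
      change φ s * (φ s)⁻¹ = 1
      exact mul_inv_cancel₀ (hne s))
    exact (isApprox_iff x' g).mpr (IsApproxA.inv hℓ hA hx' hf hfg)

/-- **FF-G4c, corrected statement**: `φ 1 s ≠ 0` is added (with the junk value `0⁻¹ = 0` the
original hypothesis `(φ 1 s)⁻¹ ∈ A` does not say that `φ 1 s` is a unit). -/
def ApproxRootStatementFixed : Prop :=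
  ∀ (ℓ : ℕ) (A : ValuationSubring Qb), ℓ.Prime → A.LiesOverPrime ℓ →
    ∀ (S : Type) [Finite S] (n : ℕ) (x : S → Fin n → Qb), (∀ s i, x s i ∈ A.nonunits) →
    ∀ ρ : S → Qb, (∀ s, ρ s ∈ A.nonunits) →
    (∀ M : ℕ, ∃ (d : ℕ) (φ : Fin (d + 2) → S → Qb),
      (∀ j, IsApprox ℓ A x (φ j)) ∧ (∀ j s, φ j s ∈ A) ∧
      (∀ s, φ 0 s ∈ A.nonunits) ∧ (∀ s, φ 1 s ≠ 0 ∧ (φ 1 s)⁻¹ ∈ A) ∧
      ∀ s, ∃ e ∈ A, ∑ j : Fin (d + 2), φ j s * ρ s ^ (j : ℕ) = (ℓ : Qb) ^ M * e) →
    IsApprox ℓ A x ρ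

/-- **FF-G4c** (simple Hensel roots), corrected statement. -/
theorem approxRootFixed : ApproxRootStatementFixed := by
  intro ℓ A hℓ hA S _ n x hx ρ hρ h
  have hxA : ∀ s i, x s i ∈ A := fun s i => A.nonunits_subset (hx s i)
  let x' : S → Fin n → A := fun s i => ⟨x s i, hxA s i⟩
  have hx' : ∀ s i, x' s i ∈ IsLocalRing.maximalIdeal A := fun s i =>
    mem_maximalIdeal_of_nonunits (hx s i)
  let ρ' : S → A := fun s => ⟨ρ s, A.nonunits_subset (hρ s)⟩
  have hρ' : ∀ s, ρ' s ∈ IsLocalRing.maximalIdeal A := fun s =>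
    mem_maximalIdeal_of_nonunits (hρ s)
  refine (isApprox_iff x' ρ').mpr (IsApproxA.root hℓ hA hx' ρ' hρ' fun M => ?_)
  obtain ⟨d, φ, hφ, hφA, hφ0, hφ1, hroot⟩ := h M
  let φ' : Fin (d + 2) → S → A := fun j s => ⟨φ j s, hφA j s⟩
  refine ⟨d, φ', fun j => (isApprox_iff x' (φ' j)).mp (hφ j),
    fun s => mem_maximalIdeal_of_nonunits (hφ0 s), fun s => ?_, fun s => ?_⟩
  · refine IsUnit.of_mul_eq_one (⟨(φ 1 s)⁻¹, (hφ1 s).2⟩ : A) (Subtype.ext ?_)
    change φ 1 s * (φ 1 s)⁻¹ = 1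
    exact mul_inv_cancel₀ (hφ1 s).1
  · obtain ⟨e, he, hse⟩ := hroot s
    rw [mem_lIdeal]
    refine ⟨⟨e, he⟩, Subtype.ext ?_⟩
    have : ((∑ j, φ' j s * ρ' s ^ (j : ℕ) : A) : Qb) = ∑ j, φ j s * ρ s ^ (j : ℕ) := by
      rw [← ValuationSubring.subtype_apply, map_sum]
      rfl
    rw [this, hse]
    simp

end Fermat.Agent.H90.FF
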