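import Mathlib
import Fermat.Agent.H90.FF.ApproxFinal

/-!
# P-FF, FF-G7-RING: closure properties of the class `C` in interface form (helper90)

All statements are about `Fermat.Agent.H72.FF.IsApprox ℓ A x φ` for `ℚ̄`-valued `x`, `φ`.
Ring operations which need integrality carry the hypothesis `hx : ∀ s i, x s i ∈ A`.
-/

set_option autoImplicit false
set_option linter.unusedSectionVars false

noncomputable section

namespace Fermat.Agent.H90.FF

open Fermat.Agent.H72.FF MvPolynomial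

variable {ℓ : ℕ} {A : ValuationSubring Qb} {S : Type} {n : ℕ} {x : S → Fin n → Qb}

/-! ### operations which do not need integrality -/

theorem isApprox_const {c : Qb} (hc : c ∈ unrInt A) : IsApprox ℓ A x (fun _ => c) := by
  intro M
  refine ⟨C c, fun m => ?_, fun s => ⟨0, A.zero_mem, by simp⟩⟩
  classical
  rw [coeff_C]
  split_ifs
  · exact hc
  · exact zero_mem _

theorem isApprox_zero : IsApprox ℓ A x (fun _ => 0) := isApprox_const (zero_mem _)

theorem isApprox_one : IsApprox ℓ A x (fun _ => 1) := isApprox_const (one_mem _)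

theorem isApprox_natCast (k : ℕ) : IsApprox ℓ A x (fun _ => (k : Qb)) :=
  isApprox_const (natCast_mem _ k)

theorem isApprox_intCast (k : ℤ) : IsApprox ℓ A x (fun _ => (k : Qb)) :=
  isApprox_const (intCast_mem _ k)

theorem isApprox_var (i : Fin n) : IsApprox ℓ A x (fun s => x s i) := by
  intro M
  refine ⟨X i, fun m => ?_, fun s => ⟨0, A.zero_mem, by simp⟩⟩
  classical
  rw [coeff_X]
  split_ifs
  · exact one_mem _
  · exact zero_mem _

theorem isApprox_add {φ ψ : S → Qb} (hφ : IsApprox ℓ A x φ) (hψ : IsApprox ℓ A x ψ) :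
    IsApprox ℓ A x (fun s => φ s + ψ s) := by
  intro M
  obtain ⟨G, hG, hGs⟩ := hφ M
  obtain ⟨H, hH, hHs⟩ := hψ M
  refine ⟨G + H, fun m => ?_, fun s => ?_⟩
  · rw [coeff_add]
    exact add_mem (hG m) (hH m)
  · obtain ⟨a, ha, hsa⟩ := hGs s
    obtain ⟨b, hb, hsb⟩ := hHs s
    refine ⟨a + b, A.add_mem _ _ ha hb, ?_⟩
    rw [map_add]
    linear_combination hsa + hsb

theorem isApprox_neg {φ : S → Qb} (hφ : IsApprox ℓ A x φ) :
    IsApprox ℓ A x (fun s => -φ s) := by
  intro M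
  obtain ⟨G, hG, hGs⟩ := hφ M
  refine ⟨-G, fun m => ?_, fun s => ?_⟩
  · rw [coeff_neg]
    exact neg_mem (hG m)
  · obtain ⟨a, ha, hsa⟩ := hGs s
    refine ⟨-a, A.neg_mem _ ha, ?_⟩
    rw [map_neg]
    linear_combination -hsa

theorem isApprox_sub {φ ψ : S → Qb} (hφ : IsApprox ℓ A x φ) (hψ : IsApprox ℓ A x ψ) :
    IsApprox ℓ A x (fun s => φ s - ψ s) := by
  have := isApprox_add hφ (isApprox_neg hψ)
  simpa [sub_eq_add_neg] using this

theorem isApprox_sum {ι : Type*} (t : Finset ι) (f : ι → S → Qb)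
    (h : ∀ i ∈ t, IsApprox ℓ A x (f i)) : IsApprox ℓ A x (fun s => ∑ i ∈ t, f i s) := by
  classical
  induction t using Finset.induction_on with
  | empty => simpa using (isApprox_zero : IsApprox ℓ A x _)
  | insert a t ha ih =>
    have h1 := h a (Finset.mem_insert_self a t)
    have h2 := ih fun i hi => h i (Finset.mem_insert_of_mem hi)
    have := isApprox_add h1 h2
    simpa [Finset.sum_insert ha] using this

/-- **limit closure** -/
theorem isApprox_of_close {ψ : S → Qb}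
    (h : ∀ M : ℕ, ∃ φM : S → Qb, IsApprox ℓ A x φM ∧
      ∀ s, ∃ e ∈ A, ψ s - φM s = (ℓ : Qb) ^ M * e) : IsApprox ℓ A x ψ := by
  intro M
  obtain ⟨φM, hφM, hclose⟩ := h M
  obtain ⟨G, hG, hGs⟩ := hφM M
  refine ⟨G, hG, fun s => ?_⟩
  obtain ⟨a, ha, hsa⟩ := hGs s
  obtain ⟨e, he, hse⟩ := hclose s
  exact ⟨e + a, A.add_mem _ _ he ha, by linear_combination hse + hsa⟩

/-- congruence -/
theorem isApprox_congr {φ ψ : S → Qb} (hφ : IsApprox ℓ A x φ) (h : ∀ s, φ s = ψ s) :
    IsApprox ℓ A x ψ := by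
  have : φ = ψ := funext h
  rwa [← this]

/-- **reparametrization** of the parameter set -/
theorem isApprox_comp_left {S' : Type} (f : S' → S) {φ : S → Qb} (hφ : IsApprox ℓ A x φ) :
    IsApprox ℓ A (fun s' => x (f s')) (fun s' => φ (f s')) := by
  intro M
  obtain ⟨G, hG, hGs⟩ := hφ M
  exact ⟨G, hG, fun s' => hGs (f s')⟩

/-- **reindexing of the variables**: a function approximable in the variables `y ∘ e` is
approximable in the variables `y` -/
theorem isApprox_rename {n' : ℕ} (e : Fin n → Fin n') (y : S → Fin n' → Qb) {φ : S → Qb}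
    (hφ : IsApprox ℓ A (fun s i => y s (e i)) φ) : IsApprox ℓ A y φ := by
  intro M
  obtain ⟨G, hG, hGs⟩ := hφ M
  obtain ⟨G₀, rfl⟩ := exists_map_eq G hG
  refine ⟨map (unrInt A).subtype (rename e G₀), fun m => ?_, fun s => ?_⟩
  · rw [coeff_map]
    exact ((rename e G₀).coeff m).2
  · obtain ⟨a, ha, hsa⟩ := hGs s
    refine ⟨a, ha, ?_⟩
    rw [← hsa, map_rename, eval_rename]
    rfl

/-- adding variables: a function approximable in some of the variables is approximable in all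
of them (special case of `isApprox_rename`) -/
theorem isApprox_of_subfamily {n' : ℕ} (e : Fin n → Fin n') (y : S → Fin n' → Qb)
    (hxy : ∀ s i, x s i = y s (e i)) {φ : S → Qb} (hφ : IsApprox ℓ A x φ) :
    IsApprox ℓ A y φ := by
  apply isApprox_rename e y
  have : x = fun s i => y s (e i) := funext fun s => funext fun i => hxy s i
  rwa [← this]

/-! ### lifting to `A` -/

/-- the lift of integral parameters to `A` -/
def liftX (hx : ∀ s i, x s i ∈ A) : S → Fin n → A := fun s i => ⟨x s i, hx s i⟩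

theorem isApprox_of_A (hx : ∀ s i, x s i ∈ A) (f : S → A)
    (hf : IsApproxA ℓ A (liftX hx) f) {φ : S → Qb} (h : ∀ s, ((f s : A) : Qb) = φ s) :
    IsApprox ℓ A x φ := by
  have := (isApprox_iff (liftX hx) f).mpr hf
  have e : (fun s => ((f s : A) : Qb)) = φ := funext h
  rw [e] at this
  exact this

/-- integrality of the values -/
theorem isApprox_mem_A (hx : ∀ s i, x s i ∈ A) {φ : S → Qb} (hφ : IsApprox ℓ A x φ) (s : S) :
    φ s ∈ A := isApprox_mem hx hφ s

theorem isApproxA_of (hx : ∀ s i, x s i ∈ A) {φ : S → Qb} (hφ : IsApprox ℓ A x φ) :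
    IsApproxA ℓ A (liftX hx) (fun s => ⟨φ s, isApprox_mem hx hφ s⟩) :=
  (isApprox_iff (liftX hx) (fun s => ⟨φ s, isApprox_mem hx hφ s⟩)).mp hφ

/-! ### operations which need integral parameters -/

theorem isApprox_mul (hx : ∀ s i, x s i ∈ A) {φ ψ : S → Qb} (hφ : IsApprox ℓ A x φ)
    (hψ : IsApprox ℓ A x ψ) : IsApprox ℓ A x (fun s => φ s * ψ s) :=
  isApprox_of_A hx _ ((isApproxA_of hx hφ).mul (isApproxA_of hx hψ)) fun _ => rfl

theorem isApprox_pow (hx : ∀ s i, x s i ∈ A) {φ : S → Qb} (hφ : IsApprox ℓ A x φ) (k : ℕ) :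
    IsApprox ℓ A x (fun s => φ s ^ k) :=
  isApprox_of_A hx _ ((isApproxA_of hx hφ).pow k) fun _ => rfl

theorem isApprox_smul_const (hx : ∀ s i, x s i ∈ A) {c : Qb} (hc : c ∈ unrInt A) {φ : S → Qb}
    (hφ : IsApprox ℓ A x φ) : IsApprox ℓ A x (fun s => c * φ s) :=
  isApprox_mul hx (isApprox_const hc) hφ

theorem isApprox_prod (hx : ∀ s i, x s i ∈ A) {ι : Type*} (t : Finset ι) (f : ι → S → Qb)
    (h : ∀ i ∈ t, IsApprox ℓ A x (f i)) : IsApprox ℓ A x (fun s => ∏ i ∈ t, f i s) := by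
  classical
  induction t using Finset.induction_on with
  | empty => simpa using (isApprox_one : IsApprox ℓ A x _)
  | insert a t ha ih =>
    have h1 := h a (Finset.mem_insert_self a t)
    have h2 := ih fun i hi => h i (Finset.mem_insert_of_mem hi)
    have := isApprox_mul hx h1 h2
    simpa [Finset.prod_insert ha] using this

/-- **polynomial substitution** (one variable) -/
theorem isApprox_polyEval (hx : ∀ s i, x s i ∈ A) (p : Polynomial Qb)
    (hp : ∀ k, p.coeff k ∈ unrInt A) {τ : S → Qb} (hτ : IsApprox ℓ A x τ) :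
    IsApprox ℓ A x (fun s => p.eval (τ s)) := by
  have h1 : IsApprox ℓ A x (fun s => ∑ i ∈ Finset.range (p.natDegree + 1),
      p.coeff i * τ s ^ i) :=
    isApprox_sum _ _ fun i _ => isApprox_mul hx (isApprox_const (hp i)) (isApprox_pow hx hτ i)
  exact isApprox_congr h1 fun s => (Polynomial.eval_eq_sum_range (p := p) (τ s)).symm

/-- **multivariate polynomial substitution** -/
theorem isApprox_mvEval (hx : ∀ s i, x s i ∈ A) {m : ℕ} (P : MvPolynomial (Fin m) Qb)
    (hP : ∀ d, P.coeff d ∈ unrInt A) {ψ : S → Fin m → Qb}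
    (hψ : ∀ j, IsApprox ℓ A x (fun s => ψ s j)) :
    IsApprox ℓ A x (fun s => eval (ψ s) P) := by
  have hψA : ∀ s j, ψ s j ∈ A := fun s j => isApprox_mem hx (hψ j) s
  have h1 : IsApprox ℓ A ψ (fun s => eval (ψ s) P) :=
    fun M => ⟨P, hP, fun s => ⟨0, A.zero_mem, by simp⟩⟩
  -- `approxComp` wants nonunit parameters only formally; use the version inside `A`
  have h2 := (isApprox_iff (liftX hψA) (fun s => ⟨eval (ψ s) P, isApprox_mem hψA h1 s⟩)).mp h1
  have h3 : ∀ j, IsApproxA ℓ A (liftX hx) (fun s => liftX hψA s j) := fun j =>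
    isApproxA_of hx (hψ j)
  exact isApprox_of_A hx _ (IsApproxA.comp h3 h2) fun _ => rfl

/-- **determinants** -/
theorem isApprox_det (hx : ∀ s i, x s i ∈ A) {ι : Type*} [DecidableEq ι] [Fintype ι]
    (C : ι → ι → S → Qb) (hC : ∀ i j, IsApprox ℓ A x (C i j)) :
    IsApprox ℓ A x (fun s => Matrix.det (Matrix.of fun i j => C i j s)) := by
  have h1 : IsApprox ℓ A x (fun s => ∑ σ : Equiv.Perm ι,
      ((Equiv.Perm.sign σ : ℤ) : Qb) * ∏ i, C (σ i) i s) :=
    isApprox_sum _ _ fun σ _ => isApprox_mul hx (isApprox_intCast _)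
      (isApprox_prod hx _ _ fun i _ => hC (σ i) i)
  refine isApprox_congr h1 fun s => ?_
  rw [Matrix.det_apply]
  refine Finset.sum_congr rfl fun σ _ => ?_
  rw [Units.smul_def, zsmul_eq_mul]
  rfl

/-! ### uniformity (rank one) -/

/-- **uniformity**: finitely many nonunits have a common power divisible by `ℓ ^ M'` -/
theorem exists_pow_eq_mul (hℓ : ℓ.Prime) (hA : A.LiesOverPrime ℓ) [Finite S] (τ : S → Qb)
    (hτ : ∀ s, τ s ∈ A.nonunits) (M' : ℕ) :
    ∃ M : ℕ, ∀ s, ∃ e ∈ A, τ s ^ M = (ℓ : Qb) ^ M' * e := by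
  obtain ⟨J, hJ⟩ := exists_pow_mem_lIdeal hℓ hA
    (fun s => (⟨τ s, A.nonunits_subset (hτ s)⟩ : A))
    (fun s => mem_maximalIdeal_of_nonunits (hτ s)) M'
  refine ⟨J, fun s => ?_⟩
  obtain ⟨a, ha⟩ := (mem_lIdeal ℓ A).mp (hJ s)
  refine ⟨(a : Qb), a.2, ?_⟩
  have := congrArg (fun z : A => (z : Qb)) ha
  simpa using this

/-- inverses, in the convenient form: `φ s ≠ 0` with integral inverse -/
theorem isApprox_inv (hℓ : ℓ.Prime) (hA : A.LiesOverPrime ℓ) [Finite S]
    (hx : ∀ s i, x s i ∈ A.nonunits) {φ : S → Qb} (hφ : IsApprox ℓ A x φ)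
    (hinv : ∀ s, (φ s)⁻¹ ∈ A) : IsApprox ℓ A x (fun s => (φ s)⁻¹) :=
  approxInv ℓ A hℓ hA S n x hx φ hφ fun s =>
    ⟨isApprox_mem (fun s i => A.nonunits_subset (hx s i)) hφ s, hinv s⟩

/-- quotients by unit-valued approximable functions -/
theorem isApprox_div (hℓ : ℓ.Prime) (hA : A.LiesOverPrime ℓ) [Finite S]
    (hx : ∀ s i, x s i ∈ A.nonunits) {φ ψ : S → Qb} (hφ : IsApprox ℓ A x φ)
    (hψ : IsApprox ℓ A x ψ) (hinv : ∀ s, (ψ s)⁻¹ ∈ A) :
    IsApprox ℓ A x (fun s => φ s / ψ s) := by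
  have := isApprox_mul (fun s i => A.nonunits_subset (hx s i)) hφ (isApprox_inv hℓ hA hx hψ hinv)
  simpa [div_eq_mul_inv] using this

end Fermat.Agent.H90.FF
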